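import Fermat.Agent.MU.S56.W4.C.KT.Defs
import Fermat.Agent.MU.Lib.BadRed.PeuD.BrkTame
import Fermat.Agent.S56.W3.TW.Lies

section MergeWrap_S56_W4_C_KT_Bridge -- from S56/W4/C/KT/Bridge.lean

set_option autoImplicit false
set_option linter.style.haveILetI false

namespace Fermat.Agent.S56.SS

open Fermat.Agent.F4 ExtCitation Fermat.Agent.FFL Fermat.Agent.FFL.FB Fermat.Agent.Cyclo Polynomial

local notation "Kb" => AlgebraicClosure ℚ
local notation "GK" => (AlgebraicClosure ℚ ≃ₐ[ℚ] AlgebraicClosure ℚ)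

section Transfer

variable {p : ℕ} [Fact p.Prime] {k κ : Type*} [Field k] [Field κ]
  [Algebra (ZMod p) k] [Algebra (ZMod p) κ]

/-- A monic quadratic over `𝔽_p` with a root `α ∉ 𝔽_p` is the minimal polynomial of `α`. -/
theorem ktb_minpoly_eq {α : k} {f : (ZMod p)[X]} (hf : f.Monic) (hdeg : f.natDegree = 2)
    (hα : aeval α f = 0) (hne : α ^ p ≠ α) : minpoly (ZMod p) α = f := by
  have hint : IsIntegral (ZMod p) α := ⟨f, hf, hα⟩
  have hdvd : minpoly (ZMod p) α ∣ f := minpoly.dvd _ _ hα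
  have hdeg2 : 2 ≤ (minpoly (ZMod p) α).natDegree := by
    by_contra hlt
    have h1 : (minpoly (ZMod p) α).natDegree = 1 := by
      have := minpoly.natDegree_pos hint
      omega
    have h2 : α ∈ (algebraMap (ZMod p) k).range := by
      rw [← minpoly.natDegree_eq_one_iff]
      exact h1
    obtain ⟨a, rfl⟩ := h2
    apply hne
    rw [← map_pow, ZMod.pow_card]
  exact (Polynomial.eq_of_monic_of_dvd_of_natDegree_le (minpoly.monic hint) hf hdvd
    (by omega)).symm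

/-- Transfer of polynomial identities between two roots of an irreducible quadratic. -/
theorem ktb_transfer {α : k} {x : κ} {f : (ZMod p)[X]} (hf : f.Monic) (hdeg : f.natDegree = 2)
    (hα : aeval α f = 0) (hx : aeval x f = 0) (hne : α ^ p ≠ α) (g : (ZMod p)[X]) :
    aeval α g = 0 ↔ aeval x g = 0 := by
  have h1 := ktb_minpoly_eq hf hdeg hα hne
  have hirr : Irreducible f := h1 ▸ minpoly.irreducible ⟨f, hf, hα⟩
  have h2 : f = minpoly (ZMod p) x := minpoly.eq_of_irreducible_of_monic hirr hx hf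
  rw [← minpoly.dvd_iff, ← minpoly.dvd_iff, h1, ← h2]

end Transfer

section Residue

theorem ktb_residue_eq_zero_iff (P : ValuationSubring Kb) (a : P) :
    IsLocalRing.residue P a = 0 ↔ (a : Kb) ∈ P.nonunits := by
  rw [IsLocalRing.residue_eq_zero_iff, ValuationSubring.mem_nonunits_iff_exists_mem_maximalIdeal]
  constructor
  · intro h
    exact ⟨a.2, h⟩
  · rintro ⟨_, h⟩
    exact h

/-- **The transfer principle**: an integer polynomial vanishes at `α ∈ k` iff it vanishes modulo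
the maximal ideal at `θ`, when both are roots of the same quadratic `X² - t X + n` (in `k`, resp.
modulo the maximal ideal) and `α ∉ 𝔽_p`. -/
theorem ktb_key {p : ℕ} [Fact p.Prime] {P : ValuationSubring Kb} (hP : P.LiesOverPrime p)
    {k : Type*} [Field k] (hk : (p : k) = 0) {α : k} (hne : α ^ p ≠ α)
    {θ : Kb} (hθ : θ ∈ P) {t n : ℤ} (ht : (t : k) = α + α ^ p) (hn : (n : k) = α ^ (p + 1))
    (hroot : θ ^ 2 - (t : Kb) * θ + (n : Kb) ∈ P.nonunits) (g : ℤ[X]) :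
    aeval α g = 0 ↔ aeval θ g ∈ P.nonunits := by
  have hp : p.Prime := Fact.out
  haveI : CharP k p := (CharP.charP_iff_prime_eq_zero hp).2 hk
  letI : Algebra (ZMod p) k := ZMod.algebra k p
  have hκ : ((p : ℕ) : IsLocalRing.ResidueField P) = 0 := by
    have h1 : (((p : ℕ) : P) : Kb) ∈ P.nonunits := by
      have h2 : ((p : ℕ) : Kb) ∈ P.nonunits := hP
      simpa using h2
    have h3 : IsLocalRing.residue P ((p : ℕ) : P) = 0 := (ktb_residue_eq_zero_iff P _).2 h1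
    simpa using h3
  haveI : CharP (IsLocalRing.ResidueField P) p := (CharP.charP_iff_prime_eq_zero hp).2 hκ
  letI : Algebra (ZMod p) (IsLocalRing.ResidueField P) := ZMod.algebra _ p
  set θP : P := ⟨θ, hθ⟩ with hθP
  set x : IsLocalRing.ResidueField P := IsLocalRing.residue P θP with hx
  have e3 : ∀ h : ℤ[X], aeval x h = IsLocalRing.residue P (aeval θP h) := fun h =>
    Polynomial.aeval_algHom_apply ((IsLocalRing.residue P).toIntAlgHom) θP h
  have e4 : ∀ h : ℤ[X], ((aeval θP h : P) : Kb) = aeval θ h := fun h =>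
    (Polynomial.aeval_algHom_apply (P.subtype.toIntAlgHom) θP h).symm
  have e1 : ∀ h : ℤ[X], aeval α (h.map (Int.castRingHom (ZMod p))) = aeval α h := fun h => by
    rw [← algebraMap_int_eq]
    exact aeval_map_algebraMap _ _ _
  have e2 : ∀ h : ℤ[X], aeval x (h.map (Int.castRingHom (ZMod p))) = aeval x h := fun h => by
    rw [aeval_def, aeval_def, eval₂_map]
    congr 1
    exact RingHom.ext_int _ _
  let f0 : ℤ[X] := X ^ 2 + (C (-t) * X + C n)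
  have hf0 : f0.Monic := monic_X_pow_add (lt_of_le_of_lt (degree_linear_le) (by norm_num))
  have hdeg0 : f0.natDegree = 2 := by
    have h6 : (C (-t) * X + C n : ℤ[X]).degree < ((X : ℤ[X]) ^ 2).degree := by
      rw [degree_X_pow]
      exact lt_of_le_of_lt (degree_linear_le) (by norm_num)
    show ((X : ℤ[X]) ^ 2 + (C (-t) * X + C n)).natDegree = 2
    rw [natDegree_add_eq_left_of_degree_lt h6, natDegree_X_pow]
  have hf : (f0.map (Int.castRingHom (ZMod p))).Monic := hf0.map _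
  have hdeg : (f0.map (Int.castRingHom (ZMod p))).natDegree = 2 := by
    rw [hf0.natDegree_map, hdeg0]
  have hα : aeval α (f0.map (Int.castRingHom (ZMod p))) = 0 := by
    rw [e1]
    simp only [f0, map_add, map_mul, map_pow, aeval_X, eq_intCast, map_neg, map_intCast, ht, hn]
    ring
  have hxr : aeval x (f0.map (Int.castRingHom (ZMod p))) = 0 := by
    rw [e2, e3, ktb_residue_eq_zero_iff, e4]
    have h5 : aeval θ f0 = θ ^ 2 - (t : Kb) * θ + (n : Kb) := by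
      simp only [f0, map_add, map_mul, map_pow, aeval_X, eq_intCast, map_neg, map_intCast]
      ring
    rw [h5]
    exact hroot
  have key := ktb_transfer hf hdeg hα hxr hne (g.map (Int.castRingHom (ZMod p)))
  rw [← e1, key, e2, e3, ktb_residue_eq_zero_iff, e4]

end Residue

section Psi

variable {p : ℕ} [Fact p.Prime] {k : Type} [Field k] {ρbar : ResidualGaloisRep k}

theorem ktb_psi_mul (s : SSStruct p ρbar) {σ σ' : GK} (hσ : σ ∈ Ip p) (hσ' : σ' ∈ Ip p) :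
    s.ψ (σ * σ') = s.ψ σ * s.ψ σ' := by
  have h1 := s.diag0 (σ * σ') (mul_mem hσ hσ')
  rw [map_mul, Module.End.mul_apply, s.diag0 σ' hσ', map_smul, s.diag0 σ hσ, smul_smul] at h1
  have h2 : (s.ψ σ' * s.ψ σ - s.ψ (σ * σ')) • s.b 0 = 0 := by rw [sub_smul, h1, sub_self]
  rcases smul_eq_zero.1 h2 with h | h
  · rw [mul_comm]
    exact (sub_eq_zero.1 h).symm
  · exact absurd h (s.b.ne_zero 0)

theorem ktb_psi_one (s : SSStruct p ρbar) : s.ψ 1 = 1 := by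
  have h1 := s.diag0 1 (one_mem _)
  rw [map_one, Module.End.one_apply] at h1
  have h2 : (s.ψ 1 - 1) • s.b 0 = 0 := by rw [sub_smul, ← h1, one_smul, sub_self]
  rcases smul_eq_zero.1 h2 with h | h
  · exact sub_eq_zero.1 h
  · exact absurd h (s.b.ne_zero 0)

theorem ktb_psi_pow (s : SSStruct p ρbar) {σ : GK} (hσ : σ ∈ Ip p) (n : ℕ) :
    s.ψ (σ ^ n) = s.ψ σ ^ n := by
  induction n with
  | zero =>
    rw [pow_zero, pow_zero]
    exact ktb_psi_one s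
  | succ n ih => rw [pow_succ, ktb_psi_mul s (pow_mem hσ n) hσ, ih, pow_succ]

theorem ktb_sq_sub_one_pos : 0 < p ^ 2 - 1 := by
  have h2 : 2 ≤ p := (Fact.out : p.Prime).two_le
  have h4 : 4 ≤ p ^ 2 := by nlinarith
  omega

theorem ktb_alpha_pow (s : SSStruct p ρbar) : s.ψ s.τ ^ (p ^ 2 - 1) = 1 := by
  have h1 := s.fp2 s.τ s.τ_mem
  have hN : p ^ 2 - 1 + 1 = p ^ 2 := by
    have := ktb_sq_sub_one_pos (p := p)
    omega
  have h2 : s.ψ s.τ ^ (p ^ 2 - 1) * s.ψ s.τ = 1 * s.ψ s.τ := by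
    rw [← pow_succ, hN, h1, one_mul]
  exact mul_right_cancel₀ s.ne_zero h2

theorem ktb_alpha_ne (s : SSStruct p ρbar) : s.ψ s.τ ^ p ≠ s.ψ s.τ := by
  intro h
  have h2 : 2 ≤ p := (Fact.out : p.Prime).two_le
  have hN : p - 1 + 1 = p := by omega
  have h3 : s.ψ s.τ ^ (p - 1) * s.ψ s.τ = 1 * s.ψ s.τ := by
    rw [← pow_succ, hN, h, one_mul]
  have h4 : s.ψ s.τ ^ (p - 1) = 1 := mul_right_cancel₀ s.ne_zero h3
  have h5 := s.ord (p - 1) (by omega) h4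
  have h6 : p * 2 ≤ p ^ 2 := by nlinarith
  omega

theorem ktb_alpha_dvd (s : SSStruct p ρbar) (j : ℕ) (hj : s.ψ s.τ ^ j = 1) : (p ^ 2 - 1) ∣ j := by
  have hN0 := ktb_sq_sub_one_pos (p := p)
  have h1 : s.ψ s.τ ^ (j % (p ^ 2 - 1)) = 1 := by
    have h2 : s.ψ s.τ ^ j = s.ψ s.τ ^ (j % (p ^ 2 - 1)) := by
      conv_lhs => rw [← Nat.div_add_mod j (p ^ 2 - 1)]
      rw [pow_add, pow_mul, ktb_alpha_pow s, one_pow, one_mul]
    rw [← h2, hj]
  rcases Nat.eq_zero_or_pos (j % (p ^ 2 - 1)) with h0 | hpos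
  · exact Nat.dvd_of_mod_eq_zero h0
  · have h3 := s.ord _ hpos h1
    have h4 := Nat.mod_lt j hN0
    omega

end Psi

section Val

variable {P : ValuationSubring Kb}

theorem ktb_mem_decomp {σ : GK} (hσ : σ ∈ P.inertiaSubgroupIn ℚ) :
    σ ∈ P.decompositionSubgroup ℚ := by
  obtain ⟨τ, _, rfl⟩ := hσ
  exact τ.2

theorem ktb_val_eq_of_div {a b : Kb} (ha : a ≠ 0) (hb : b ≠ 0)
    (h1 : a / b ∈ P) (h2 : b / a ∈ P) : P.valuation a = P.valuation b := by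
  have h1' : P.valuation (a / b) ≤ 1 := (P.valuation_le_one_iff _).2 h1
  have h2' : P.valuation (b / a) ≤ 1 := (P.valuation_le_one_iff _).2 h2
  rw [map_div₀, div_le_one₀ (zero_lt_iff.2 ((Valuation.ne_zero_iff _).2 hb))] at h1'
  rw [map_div₀, div_le_one₀ (zero_lt_iff.2 ((Valuation.ne_zero_iff _).2 ha))] at h2'
  exact le_antisymm h1' h2'

/-- `σ (ϖ / y) / (ϖ / y) ≡ σ ϖ / ϖ` for `σ` in inertia and `y` a unit. -/
theorem ktb_cong {σ : GK} (hσ : σ ∈ P.inertiaSubgroupIn ℚ) {ϖ y : Kb}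
    (hϖ : ϖ ≠ 0) (hy : y ≠ 0) (hvy : P.valuation y = 1) :
    σ (ϖ / y) / (ϖ / y) - σ ϖ / ϖ ∈ P.nonunits := by
  have hσD : σ ∈ P.decompositionSubgroup ℚ := ktb_mem_decomp hσ
  have hσy0 : σ y ≠ 0 := fun h => hy ((map_eq_zero_iff σ σ.injective).1 h)
  have hσϖ0 : σ ϖ ≠ 0 := fun h => hϖ ((map_eq_zero_iff σ σ.injective).1 h)
  have hyP : y ∈ P := (P.valuation_le_one_iff y).1 hvy.le
  have h1 : σ y - y ∈ P.nonunits := inertia_sub_mem_nonunits P hσ hyP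
  have h2 : σ (ϖ / y) / (ϖ / y) - σ ϖ / ϖ = (σ ϖ / ϖ) * (-(σ y - y) / σ y) := by
    rw [map_div₀]
    field_simp
    ring
  rw [h2, ValuationSubring.mem_nonunits_iff, map_mul, map_div₀, map_div₀, Valuation.map_neg,
    val_decomp hσD, val_decomp hσD, hvy, div_one,
    div_self ((Valuation.ne_zero_iff _).2 hϖ), one_mul]
  exact (ValuationSubring.mem_nonunits_iff P).1 h1

theorem ktb_div_mem {σ : GK} (hσ : σ ∈ P.decompositionSubgroup ℚ) {ϖ : Kb} (hϖ : ϖ ≠ 0) :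
    σ ϖ / ϖ ∈ P := by
  rw [← P.valuation_le_one_iff, map_div₀, val_decomp hσ,
    div_self ((Valuation.ne_zero_iff _).2 hϖ)]

end Val

section Main

variable {p : ℕ} [Fact p.Prime] {k : Type} [Field k] {ρbar : ResidualGaloisRep k}

theorem ktb_exists_y (s : SSStruct p ρbar) :
    ∃ y : Kb, y ≠ 0 ∧ (Pp p).valuation y = 1 ∧ IsPi1 p (s.ϖ / y) := by
  have hp : p.Prime := Fact.out
  have hp0 : (p : Kb) ≠ 0 := ar_p_ne_zero hp
  have hN0 : 0 < p ^ 2 - 1 := ktb_sq_sub_one_pos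
  have hϖ0 : s.ϖ ≠ 0 := s.ϖ_le.1
  have hge : s.ϖ ^ (p ^ 2 - 1) / (p : Kb) ^ 1 ∈ Pp p := s.ϖ_ge
  have hle : (p : Kb) ^ 1 / s.ϖ ^ (p ^ 2 - 1) ∈ Pp p := s.ϖ_le.2
  rw [pow_one] at hge hle
  have hv : (Pp p).valuation (s.ϖ ^ (p ^ 2 - 1)) = (Pp p).valuation (p : Kb) :=
    ktb_val_eq_of_div (pow_ne_zero _ hϖ0) hp0 hge hle
  obtain ⟨y, hy⟩ := IsAlgClosed.exists_pow_nat_eq (s.ϖ ^ (p ^ 2 - 1) / (-(p : Kb))) hN0
  have hu0 : s.ϖ ^ (p ^ 2 - 1) / (-(p : Kb)) ≠ 0 :=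
    div_ne_zero (pow_ne_zero _ hϖ0) (neg_ne_zero.2 hp0)
  have hy0 : y ≠ 0 := by
    rintro rfl
    rw [zero_pow hN0.ne'] at hy
    exact hu0 hy.symm
  have hvy : (Pp p).valuation y = 1 := by
    have h1 : (Pp p).valuation y ^ (p ^ 2 - 1) = 1 := by
      rw [← map_pow, hy, map_div₀, Valuation.map_neg, hv,
        div_self ((Valuation.ne_zero_iff _).2 hp0)]
    exact (pow_eq_one_iff_of_nonneg zero_le hN0.ne').1 h1
  refine ⟨y, hy0, hvy, ?_⟩
  show (s.ϖ / y) ^ (p ^ 2 - 1) = -(p : Kb)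
  rw [div_pow, hy]
  field_simp

omit [Fact p.Prime] in
theorem ktb_tame_pow {P : ValuationSubring Kb} {e : ℕ} {π : Kb} (S : TameSetting p P e π)
    {σ : GK} (hσ : σ ∈ P.inertiaSubgroupIn ℚ) (n : ℕ) : (σ ^ n) π / π = (σ π / π) ^ n := by
  induction n with
  | zero => rw [pow_zero, pow_zero, AlgEquiv.one_apply, div_self S.hπ0]
  | succ n ih => rw [pow_succ, S.tame_mul (pow_mem hσ n) hσ, ih, pow_succ]

/-- **KT-BRIDGE**. -/
theorem ktBridgeProp (p : ℕ) [Fact p.Prime] : KTBridgeProp p := by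
  intro k _ _ ρbar s hp2 hk
  have hp : p.Prime := Fact.out
  have hP : (Pp p).LiesOverPrime p := Fermat.Agent.S56.primeLocalPlace_liesOverPrime (pPrime p)
  obtain ⟨y, hy0, hvy, hπ⟩ := ktb_exists_y s
  have hϖ0 : s.ϖ ≠ 0 := s.ϖ_le.1
  have S : TameSetting p (Pp p) (p ^ 2 - 1) (s.ϖ / y) := tameSetting_of_isPi1 hp hP hπ
  have hN0 : 0 < p ^ 2 - 1 := S.e_pos
  have hαN := ktb_alpha_pow s
  have hαne := ktb_alpha_ne s
  obtain ⟨t, n, ht, hn, hchar⟩ := s.ϖ_char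
  have hτD : s.τ ∈ Dp p := ktb_mem_decomp s.τ_mem
  have hxP : s.τ s.ϖ / s.ϖ ∈ Pp p := ktb_div_mem hτD hϖ0
  have hθ1 : (s.τ (s.ϖ / y) / (s.ϖ / y)) ^ (p ^ 2 - 1) = 1 := S.tame_pow_eq_one s.τ_mem
  have hθP : s.τ (s.ϖ / y) / (s.ϖ / y) ∈ Pp p := pow_eq_one_mem (Pp p) hN0.ne' hθ1
  have hcong := ktb_cong (P := Pp p) s.τ_mem hϖ0 hy0 hvy
  have hroot : (s.τ (s.ϖ / y) / (s.ϖ / y)) ^ 2 - (t : Kb) * (s.τ (s.ϖ / y) / (s.ϖ / y))
      + (n : Kb) ∈ (Pp p).nonunits := by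
    have h1 : ((s.τ s.ϖ) ^ 2 - (t : Kb) * (s.τ s.ϖ) * s.ϖ + (n : Kb) * s.ϖ ^ 2) / s.ϖ ^ 2
        = (s.τ s.ϖ / s.ϖ) ^ 2 - (t : Kb) * (s.τ s.ϖ / s.ϖ) + (n : Kb) := by
      field_simp
    rw [h1] at hchar
    have h2 : (s.τ (s.ϖ / y) / (s.ϖ / y)) ^ 2 - (t : Kb) * (s.τ (s.ϖ / y) / (s.ϖ / y))
        + (n : Kb) = ((s.τ s.ϖ / s.ϖ) ^ 2 - (t : Kb) * (s.τ s.ϖ / s.ϖ) + (n : Kb))
          + (s.τ (s.ϖ / y) / (s.ϖ / y) - s.τ s.ϖ / s.ϖ)
            * (s.τ (s.ϖ / y) / (s.ϖ / y) + s.τ s.ϖ / s.ϖ - (t : Kb)) := by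
      ring
    rw [h2]
    exact red_add_mem_nonunits _ hchar (red_mul_mem_nonunits_right _ hcong
      (sub_mem (add_mem hθP hxP) (ar_intCast_mem _ t)))
  have key := fun g : ℤ[X] => ktb_key hP hk hαne hθP ht hn hroot g
  have htame : ∀ j : ℕ, (s.τ (s.ϖ / y) / (s.ϖ / y)) ^ j - 1 ∈ (Pp p).nonunits →
      (p ^ 2 - 1) ∣ j := by
    intro j hj
    apply ktb_alpha_dvd s
    have h1 := (key (X ^ j - 1)).2 (by
      simp only [map_sub, map_pow, aeval_X, map_one]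
      exact hj)
    simp only [map_sub, map_pow, aeval_X, map_one] at h1
    exact sub_eq_zero.1 h1
  have hfwd : ∀ σ : GK, σ ∈ I1 s → σ ∈ stabI (Pp p) (s.ϖ / y) := by
    rintro σ ⟨hσI, hψ⟩
    refine ⟨hσI, ?_⟩
    have h1 := ktb_cong (P := Pp p) hσI hϖ0 hy0 hvy
    rw [s.ϖ_fix σ hσI hψ, div_self hϖ0] at h1
    have h2 := eq_one_of_sub_one_mem_nonunits (Pp p) hN0.ne' (S.tame_pow_eq_one hσI)
      (natCast_not_mem_nonunits (Pp p) hp hP S.he) h1
    exact (div_eq_one_iff_eq S.hπ0).1 h2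
  refine ⟨s.ϖ / y, hπ, fun σ => ⟨hfwd σ, ?_⟩, ⟨s.τ_mem, htame⟩, ?_⟩
  · rintro ⟨hσI, hfix⟩
    refine ⟨hσI, ?_⟩
    obtain ⟨m, hm⟩ := s.gen σ hσI
    have hτm : s.τ ^ m ∈ Ip p := pow_mem s.τ_mem m
    have hh : (s.τ ^ m)⁻¹ * σ ∈ Ip p := mul_mem (inv_mem hτm) hσI
    have h1 : s.ψ (s.τ ^ m) * s.ψ ((s.τ ^ m)⁻¹ * σ) = s.ψ (s.τ ^ m) * 1 := by
      rw [← ktb_psi_mul s hτm hh, mul_inv_cancel_left, mul_one, ktb_psi_pow s s.τ_mem, hm]
    have h2 : s.ψ ((s.τ ^ m)⁻¹ * σ) = 1 := by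
      refine mul_left_cancel₀ ?_ h1
      rw [ktb_psi_pow s s.τ_mem]
      exact pow_ne_zero _ s.ne_zero
    have h3 : (s.τ ^ m)⁻¹ * σ ∈ stabI (Pp p) (s.ϖ / y) := hfwd _ ⟨hh, h2⟩
    have h4 : s.τ ^ m ∈ stabI (Pp p) (s.ϖ / y) := by
      have h5 : s.τ ^ m = σ * ((s.τ ^ m)⁻¹ * σ)⁻¹ := by group
      rw [h5]
      exact mul_mem ⟨hσI, hfix⟩ (inv_mem h3)
    have h6 : (s.τ (s.ϖ / y) / (s.ϖ / y)) ^ m = 1 := by
      rw [← ktb_tame_pow S s.τ_mem, h4.2, div_self S.hπ0]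
    have h7 : (p ^ 2 - 1) ∣ m := by
      apply htame
      rw [h6, sub_self]
      exact red_zero_mem_nonunits _
    obtain ⟨c, rfl⟩ := h7
    rw [hm, pow_mul, hαN, one_pow]
  · intro m t' n' ht' hn'
    constructor
    · have h1 := (key (C t' - (X ^ m + X ^ (p * m)))).1 (by
        simp only [map_sub, map_add, map_pow, aeval_X, eq_intCast, map_intCast]
        rw [ht', sub_self])
      simp only [map_sub, map_add, map_pow, aeval_X, eq_intCast, map_intCast] at h1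
      exact h1
    · have h1 := (key (C n' - X ^ (m * (p + 1)))).1 (by
        simp only [map_sub, map_pow, aeval_X, eq_intCast, map_intCast]
        rw [hn', sub_self])
      simp only [map_sub, map_pow, aeval_X, eq_intCast, map_intCast] at h1
      exact h1

end Main

end Fermat.Agent.S56.SS
end MergeWrap_S56_W4_C_KT_Bridge
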