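import Fermat.Agent.MU.S56.W4.C.Defs
import Fermat.Agent.MU.Lib.BadRed.PeuD.BrkTame

section MergeWrap_S56_W4_C_KT_Defs -- from S56/W4/C/KT/Defs.lean

set_option autoImplicit false

namespace Fermat.Agent.S56.SS

open Fermat.Agent.F4 ExtCitation Fermat.Agent.FFL Fermat.Agent.FFL.FB

local notation "Kb" => AlgebraicClosure ℚ
local notation "GK" => (AlgebraicClosure ℚ ≃ₐ[ℚ] AlgebraicClosure ℚ)

variable (p : ℕ) [Fact p.Prime]

/-- **KT-BRIDGE**: from the supersingular structure to the standard uniformiser `π1`. -/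
def KTBridgeProp : Prop :=
  ∀ (k : Type) [Field k] [Finite k] (ρbar : ResidualGaloisRep k) (s : SSStruct p ρbar),
    p ≠ 2 → (p : k) = 0 →
    ∃ π1 : Kb, IsPi1 p π1 ∧ (∀ σ : GK, σ ∈ I1 s ↔ σ ∈ stabI (Pp p) π1) ∧
      TameGen p (Pp p) π1 s.τ ∧
      ∀ (m : ℕ) (t n : ℤ), (t : k) = (s.ψ s.τ) ^ m + (s.ψ s.τ) ^ (p * m) →
        (n : k) = (s.ψ s.τ) ^ (m * (p + 1)) →
        (t : Kb) - ((s.τ π1 / π1) ^ m + (s.τ π1 / π1) ^ (p * m)) ∈ (Pp p).nonunits ∧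
        (n : Kb) - (s.τ π1 / π1) ^ (m * (p + 1)) ∈ (Pp p).nonunits

/-- **KT-FROB**: some Frobenius at `P` acts anti-diagonally in the eigenbasis of inertia. -/
def KTFrobProp : Prop :=
  ∀ (k : Type) [Field k] [Finite k] (ρbar : ResidualGaloisRep k) (s : SSStruct p ρbar),
    p ≠ 2 → (p : k) = 0 →
    ∃ φ : GK, φ ∈ Dp p ∧ (∀ a ∈ Pp p, φ a - a ^ p ∈ (Pp p).nonunits) ∧
      ∃ x y : k, ρbar.ρ φ (s.b 0) = x • s.b 1 ∧ ρbar.ρ φ (s.b 1) = y • s.b 0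

/-- **KT-COC**: the cocycle relations for the endomorphism-valued function of a cocycle of
`ad⁰ ρbar`: cocycle identity, smoothness, trace zero. -/
def KTCocProp : Prop :=
  ∀ (k : Type) [Field k] [Finite k] (ρbar : ResidualGaloisRep k)
    (c : ↥(Z1 levelsAll (ad0 ρbar))),
    (∀ g h : GK, ((c : GQ → ad0 ρbar) (g * h) : ↥(ad0Sub ρbar)).1 =
      ((c : GQ → ad0 ρbar) g : ↥(ad0Sub ρbar)).1 +
        ρbar.ρ g * ((c : GQ → ad0 ρbar) h : ↥(ad0Sub ρbar)).1 * ρbar.ρ g⁻¹) ∧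
    (∃ F : IntermediateField ℚ Kb, FiniteDimensional ℚ F ∧
      ∀ h ∈ F.fixingSubgroup, ((c : GQ → ad0 ρbar) h : ↥(ad0Sub ρbar)).1 = 0) ∧
    ∀ g : GK, LinearMap.trace k ρbar.V ((c : GQ → ad0 ρbar) g : ↥(ad0Sub ρbar)).1 = 0

end Fermat.Agent.S56.SS
end MergeWrap_S56_W4_C_KT_Defs
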